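import Mathlib.LinearAlgebra.Lagrange
import Mathlib.Algebra.MvPolynomial.Degrees
import Mathlib.Algebra.BigOperators.Ring.Finset
import Mathlib.Tactic

/-!
# The coefficient formula on a grid

Lagrange interpolation in each variable (Karasev and Petrov, Lasoń).
-/

set_option autoImplicit false

noncomputable section

namespace FA.QDyson

open Finset

variable {K : Type*} [Field K] [DecidableEq K]

theorem sum_pow_div_eq {s : Finset K} {d m : ℕ} (hs : s.card = d + 1) (hm : m ≤ d) :
    ∑ c ∈ s, c ^ m / ∏ b ∈ s.erase c, (c - b) = if m = d then 1 else 0 := by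
  have h := Lagrange.coeff_eq_sum (s := s) (v := id) (P := (Polynomial.X : Polynomial K) ^ m)
    Function.injective_id.injOn
    (by rw [Polynomial.degree_X_pow, hs]; exact_mod_cast Nat.lt_succ_of_le hm)
  rw [hs, Nat.add_sub_cancel, Polynomial.coeff_X_pow] at h
  simp only [Polynomial.eval_pow, Polynomial.eval_X, id] at h
  rw [← h]
  exact if_congr eq_comm rfl rfl

/-- **The coefficient formula.** -/
theorem coeff_eq_grid_sum {ι : Type*} [Fintype ι] [DecidableEq ι] (F : MvPolynomial ι K)
    (d : ι →₀ ℕ) (A : ι → Finset K) (hA : ∀ i, (A i).card = d i + 1)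
    (hdeg : F.totalDegree ≤ ∑ i, d i) :
    MvPolynomial.coeff d F = ∑ c ∈ Fintype.piFinset A,
      MvPolynomial.eval c F / ∏ i, ∏ b ∈ (A i).erase (c i), (c i - b) := by
  have h1 : ∀ m ∈ F.support, ∑ c ∈ Fintype.piFinset A,
      (∏ i, c i ^ m i) / ∏ i, ∏ b ∈ (A i).erase (c i), (c i - b) = if m = d then 1 else 0 := by
    intro m hm
    simp only [← prod_div_distrib]
    rw [← prod_univ_sum A fun i x => x ^ m i / ∏ b ∈ (A i).erase x, (x - b)]
    rcases eq_or_ne m d with rfl | hne
    · rw [if_pos rfl]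
      exact prod_eq_one fun i _ => by rw [sum_pow_div_eq (hA i) le_rfl, if_pos rfl]
    rw [if_neg hne]
    obtain ⟨i, hi⟩ : ∃ i, m i < d i := by
      by_contra! h
      refine hne (Finsupp.ext fun i => ?_)
      have htot : ∑ i, m i ≤ ∑ i, d i := by
        refine le_trans (le_of_eq ?_) ((MvPolynomial.le_totalDegree hm).trans hdeg)
        rw [Finsupp.sum_fintype _ _ fun _ => rfl]
      have heq : ∑ i, d i = ∑ i, m i := le_antisymm (sum_le_sum fun i _ => h i) htot
      exact ((sum_eq_sum_iff_of_le fun i _ => h i).1 heq i (mem_univ i)).symm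
    exact prod_eq_zero (mem_univ i) (by rw [sum_pow_div_eq (hA i) hi.le, if_neg hi.ne])
  simp only [MvPolynomial.eval_eq', sum_div]
  rw [sum_comm]
  simp only [mul_div_assoc, ← mul_sum]
  rw [sum_congr rfl fun m hm => by rw [h1 m hm]]
  simp only [mul_ite, mul_one, mul_zero]
  rw [sum_ite_eq']
  split_ifs with h
  · rfl
  · exact MvPolynomial.notMem_support_iff.1 h

end FA.QDyson
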