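import Mathlib.Algebra.BigOperators.Intervals
import Mathlib.Algebra.Polynomial.BigOperators
import Mathlib.Order.Interval.Finset.Fin
import Mathlib.Tactic

/-!
# Products over consecutive blocks
-/

set_option autoImplicit false

noncomputable section

namespace FA.QDyson

open Finset

/-- `(q)_m = (1 - q) ⋯ (1 - q ^ m)`. -/
def qPoch {R : Type*} [CommRing R] (q : R) (m : ℕ) : R := ∏ u ∈ range m, (1 - q ^ (u + 1))

theorem qPoch_add {R : Type*} [CommRing R] (q : R) (a m : ℕ) :
    qPoch q (a + m) = qPoch q a * ∏ u ∈ range m, (1 - q ^ (a + u + 1)) := by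
  rw [qPoch, prod_range_add]
  rfl

/-- Blocks of lengths `A k` fill an interval. -/
theorem prod_blocks {M : Type*} [CommMonoid M] (A : ℕ → ℕ) (f : ℕ → M) {k l : ℕ} (h : k ≤ l) :
    ∏ j ∈ Ico k l, ∏ u ∈ range (A j), f ((∑ i ∈ range j, A i) + u) =
      ∏ v ∈ Ico (∑ i ∈ range k, A i) (∑ i ∈ range l, A i), f v := by
  induction l, h using Nat.le_induction with
  | base => simp
  | succ l hl ih =>
    rw [prod_Ico_succ_top hl, ih, sum_range_succ, ← prod_Ico_consecutive f
      (sum_le_sum_of_subset (range_subset_range.2 hl)) (Nat.le_add_right _ (A l))]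
    rw [prod_Ico_eq_prod_range _ _ (∑ i ∈ range l, A i + A l), Nat.add_sub_cancel_left]

variable {n : ℕ}

/-- The exponents as a sequence. -/
def expSeq (a : Fin n → ℕ) (j : ℕ) : ℕ := if h : j < n then a ⟨j, h⟩ else 0

/-- `a 1 + ⋯ + a (j - 1)`. -/
def prefixSum (a : Fin n → ℕ) (j : ℕ) : ℕ := ∑ i ∈ range j, expSeq a i

theorem prefixSum_succ (a : Fin n → ℕ) (i : Fin n) :
    prefixSum a (i + 1) = prefixSum a i + a i := by
  rw [prefixSum, prefixSum, sum_range_succ, expSeq, dif_pos i.isLt]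

theorem prefixSum_eq_sum_Iio (a : Fin n → ℕ) (i : Fin n) :
    prefixSum a i = ∑ j ∈ Iio i, a j := by
  rw [prefixSum, ← Nat.Iio_eq_range, ← Fin.map_valEmbedding_Iio, sum_map]
  exact sum_congr rfl fun j _ => by simp [expSeq]

theorem prefixSum_top (a : Fin n → ℕ) : prefixSum a n = ∑ j, a j := by
  rw [prefixSum, ← Fin.sum_univ_eq_sum_range]
  exact sum_congr rfl fun j _ => by simp [expSeq]

theorem prefixSum_mono (a : Fin n → ℕ) : Monotone (prefixSum a) :=
  fun _ _ h => sum_le_sum_of_subset (range_subset_range.2 h)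

theorem prod_blocks_Iio {M : Type*} [CommMonoid M] (a : Fin n → ℕ) (f : ℕ → M) (i : Fin n) :
    ∏ j ∈ Iio i, ∏ u ∈ range (a j), f (prefixSum a j + u) = ∏ v ∈ range (prefixSum a i), f v := by
  have h := prod_blocks (expSeq a) f (Nat.zero_le (i : ℕ))
  simp only [← Nat.Iio_eq_range, Nat.Ico_zero_eq_range] at h
  rw [← Fin.map_valEmbedding_Iio, prod_map] at h
  refine Eq.trans (prod_congr rfl fun j _ => ?_) (h.trans ?_)
  · simp [expSeq, prefixSum, Nat.Iio_eq_range]
  · simp [prefixSum, Nat.Iio_eq_range]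

theorem prod_blocks_Ioi {M : Type*} [CommMonoid M] (a : Fin n → ℕ) (f : ℕ → M) (i : Fin n) :
    ∏ j ∈ Ioi i, ∏ u ∈ range (a j), f (prefixSum a j + u) =
      ∏ v ∈ Ico (prefixSum a i + a i) (∑ j, a j), f v := by
  have h := prod_blocks (expSeq a) f (show (i : ℕ) + 1 ≤ n from i.isLt)
  rw [show Ico ((i : ℕ) + 1) n = Ioo (i : ℕ) n by ext; simp,
    ← Fin.map_valEmbedding_Ioi, prod_map] at h
  rw [← prefixSum_succ, ← prefixSum_top]
  refine Eq.trans (prod_congr rfl fun j _ => ?_) h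
  simp [expSeq, prefixSum]

end FA.QDyson
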