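import Mathlib.RingTheory.Localization.FractionRing
import Mathlib.RingTheory.MvPolynomial.Homogeneous
import Fermat.Agent.QDyson.Grid
import Fermat.Agent.QDyson.Pochhammer
import Fermat.Agent.DysonConstantTerm.Main

/-!
# The q-Dyson theorem

On the grid of the powers of `q` only the point of the partial sums of the exponents survives
(Károlyi, Lasoń, Nagy and Petrov, 2015).
-/

set_option autoImplicit false

noncomputable section

namespace FA.QDyson

open Finset MvPolynomial
open FA.DysonConstantTerm (dysonExp dysonExp_apply dysonPoly)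

variable {n : ℕ}

/-- `0` above the diagonal, `1` below. -/
def shiftIdx (i j : Fin n) : ℕ := if i < j then 0 else 1

/-- The polynomial of `∏_{i < j} (x i / x j)_{a i} (q x j / x i)_{a j}`. -/
def qDysonPoly {R : Type*} [CommRing R] (q : R) (a : Fin n → ℕ) : MvPolynomial (Fin n) R :=
  ∏ i, ∏ j ∈ univ.erase i, ∏ u ∈ range (a i), (X j - C (q ^ (u + shiftIdx i j)) * X i)

theorem map_qDysonPoly {R S : Type*} [CommRing R] [CommRing S] (f : R →+* S) (q : R)
    (a : Fin n → ℕ) : MvPolynomial.map f (qDysonPoly q a) = qDysonPoly (f q) a := by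
  simp [qDysonPoly]

theorem totalDegree_qDysonPoly_le {R : Type*} [CommRing R] (q : R) (a : Fin n → ℕ) :
    (qDysonPoly q a).totalDegree ≤ ∑ i, dysonExp (univ : Finset (Fin n)) a i := by
  simp only [dysonExp_apply, mem_univ, if_true]
  rw [sum_comm' (t' := univ) (s' := fun i => univ.erase i) (fun x y => by simp [eq_comm])]
  refine (totalDegree_finsetProd _ _).trans (sum_le_sum fun i _ => ?_)
  refine (totalDegree_finsetProd _ _).trans (sum_le_sum fun j _ => ?_)
  refine (totalDegree_finsetProd _ _).trans ?_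
  refine le_trans (sum_le_card_nsmul _ _ 1 fun u _ => ?_) (by simp)
  refine ((mem_homogeneousSubmodule _ _).1 (Submodule.sub_mem _
    (isHomogeneous_X R j) ?_)).totalDegree_le
  exact (mem_homogeneousSubmodule _ _).2 ((isHomogeneous_X R i).C_mul _)

/-- A point of the grid where the polynomial does not vanish. -/
def Admissible (a t : Fin n → ℕ) : Prop :=
  (∀ i, t i + a i ≤ ∑ j, a j) ∧
    ∀ i j, i ≠ j → ∀ u < a i, t j ≠ t i + (u + shiftIdx i j)

theorem Admissible.ne {a t : Fin n → ℕ} (h : Admissible a t) {x y : Fin n} (hxy : x < y)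
    (hx : a x ≠ 0) : t x ≠ t y := fun he =>
  h.2 x y hxy.ne 0 (Nat.pos_of_ne_zero hx) (by simp [shiftIdx, hxy, he])

theorem Admissible.add_le {a t : Fin n → ℕ} (h : Admissible a t) {x y : Fin n}
    (hxy : t x < t y) : t x + (a x + shiftIdx x y) ≤ t y := by
  by_contra hlt
  rcases Nat.lt_or_ge (t y) (t x + shiftIdx x y) with h1 | h1
  · have : shiftIdx x y ≤ 1 := by rw [shiftIdx]; split_ifs <;> omega
    omega
  · exact h.2 x y (fun he => by rw [he] at hxy; exact lt_irrefl _ hxy) (t y - t x - shiftIdx x y)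
      (by omega) (by omega)

/-- **The chain.** -/
theorem Admissible.chain {a t : Fin n → ℕ} (h : Admissible a t) (s : Finset (Fin n))
    (hs : s.Nonempty) (hpos : ∀ x ∈ s, a x ≠ 0) :
    ∃ l ∈ s, ∃ m ∈ s, (∀ x ∈ s, t l ≤ t x ∧ t x ≤ t m) ∧
      t l + ∑ x ∈ s, a x ≤ t m + a m ∧
      ((¬ ∀ x ∈ s, ∀ y ∈ s, x < y → t x < t y) → t l + ∑ x ∈ s, a x < t m + a m) := by
  induction s using Finset.strongInduction with
  | _ s ih =>
  obtain ⟨m, hm, hmax⟩ := s.exists_max_image t hs
  have hinj : ∀ x ∈ s, ∀ y ∈ s, x ≠ y → t x ≠ t y := fun x hx y hy hxy => by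
    rcases lt_or_gt_of_ne hxy with h' | h'
    · exact h.ne h' (hpos x hx)
    · exact (h.ne h' (hpos y hy)).symm
  rcases (s.erase m).eq_empty_or_nonempty with he | hne
  · refine ⟨m, hm, m, hm, fun x hx => ?_, ?_, fun hn => ?_⟩
    · obtain rfl : x = m := by
        by_contra hxm
        exact eq_empty_iff_forall_notMem.1 he x (mem_erase.2 ⟨hxm, hx⟩)
      exact ⟨le_rfl, le_rfl⟩
    · rw [← add_sum_erase _ _ hm, he, sum_empty, add_zero]
    · refine absurd (fun x hx y hy hxy => ?_) hn
      by_contra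
      rcases eq_or_ne x m with rfl | hxm
      · exact eq_empty_iff_forall_notMem.1 he y (mem_erase.2 ⟨hxy.ne', hy⟩)
      · exact eq_empty_iff_forall_notMem.1 he x (mem_erase.2 ⟨hxm, hx⟩)
  obtain ⟨l, hl, m', hm', hlm, hsum, hstrict⟩ :=
    ih (s.erase m) (erase_ssubset hm) hne fun x hx => hpos x (mem_of_mem_erase hx)
  have hlt : ∀ x ∈ s.erase m, t x < t m := fun x hx =>
    (hmax x (mem_of_mem_erase hx)).lt_of_ne
      (hinj x (mem_of_mem_erase hx) m hm (ne_of_mem_erase hx))
  have hstep := h.add_le (hlt m' hm')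
  refine ⟨l, mem_of_mem_erase hl, m, hm, fun x hx => ⟨?_, hmax x hx⟩, ?_, fun hn => ?_⟩
  · rcases eq_or_ne x m with rfl | hxm
    · exact (hlt l hl).le
    · exact (hlm x (mem_erase.2 ⟨hxm, hx⟩)).1
  · rw [← add_sum_erase _ _ hm]
    omega
  · rw [← add_sum_erase _ _ hm]
    by_cases hP : ∀ x ∈ s.erase m, ∀ y ∈ s.erase m, x < y → t x < t y
    · have hd : m < m' := by
        by_contra! hmm
        refine hn fun x hx y hy hxy => ?_
        rcases eq_or_ne y m with rfl | hym
        · exact hlt x (mem_erase.2 ⟨hxy.ne, hx⟩)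
        rcases eq_or_ne x m with rfl | hxm
        · have := hP m' hm' y (mem_erase.2 ⟨hym, hy⟩) (lt_of_le_of_lt hmm hxy)
          have := (hlm y (mem_erase.2 ⟨hym, hy⟩)).2
          omega
        · exact hP x (mem_erase.2 ⟨hxm, hx⟩) y (mem_erase.2 ⟨hym, hy⟩) hxy
      have : shiftIdx m' m = 1 := by rw [shiftIdx, if_neg (by exact not_lt.2 hd.le)]
      omega
    · have := hstrict hP
      omega

/-- **Only the partial sums survive.** -/
theorem Admissible.eq_prefixSum {a t : Fin n → ℕ} (h : Admissible a t) (i : Fin n) :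
    t i = prefixSum a i := by
  classical
  obtain ⟨P, hP⟩ : ∃ P : Finset (Fin n), P = univ.filter fun x => a x ≠ 0 := ⟨_, rfl⟩
  have hpos : ∀ x ∈ P, a x ≠ 0 := fun x hx => by
    rw [hP] at hx
    exact (mem_filter.1 hx).2
  have hmono : ∀ x ∈ P, ∀ y ∈ P, x < y → t x < t y := by
    intro x hx y hy hxy
    by_contra hn
    obtain ⟨l, -, m, -, -, -, hstrict⟩ := h.chain P ⟨x, hx⟩ hpos
    have h1 := hstrict fun hall => hn (hall x hx y hy hxy)
    have h2 : ∑ x ∈ P, a x = ∑ x, a x := by rw [hP, sum_filter_ne_zero]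
    have := h.1 m
    omega
  have hcore : ∀ x ∈ P, t x = prefixSum a x := by
    intro x hx
    obtain ⟨l, -, m, hm, hlm, hlow, -⟩ := h.chain (P.filter fun y => y ≤ x)
      ⟨x, mem_filter.2 ⟨hx, le_rfl⟩⟩ fun y hy => hpos y (mem_filter.1 hy).1
    obtain ⟨l', hl', m', -, hlm', hup, -⟩ := h.chain (P.filter fun y => x ≤ y)
      ⟨x, mem_filter.2 ⟨hx, le_rfl⟩⟩ fun y hy => hpos y (mem_filter.1 hy).1
    have hmx : m = x := by
      obtain ⟨hmP, hmle⟩ := mem_filter.1 hm
      rcases hmle.eq_or_lt with h' | h'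
      · exact h'
      · have := hmono m hmP x hx h'
        have := (hlm x (mem_filter.2 ⟨hx, le_rfl⟩)).2
        omega
    have hlx : l' = x := by
      obtain ⟨hlP, hlle⟩ := mem_filter.1 hl'
      rcases hlle.eq_or_lt with h' | h'
      · exact h'.symm
      · have := hmono x hx l' hlP h'
        have := (hlm' x (mem_filter.2 ⟨hx, le_rfl⟩)).1
        omega
    have e1 : ∑ y ∈ P.filter (fun y => y ≤ x), a y = prefixSum a x + a x := by
      rw [hP, filter_comm, sum_filter_ne_zero, prefixSum_eq_sum_Iio, add_comm,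
        show (univ.filter fun y => y ≤ x) = insert x (Iio x) by ext; simp [le_iff_eq_or_lt],
        sum_insert (by simp)]
    have e2 : ∑ y ∈ P.filter (fun y => x ≤ y), a y + prefixSum a x = ∑ y, a y := by
      rw [hP, filter_comm, sum_filter_ne_zero, prefixSum_eq_sum_Iio,
        ← sum_filter_add_sum_filter_not univ (fun y => x ≤ y) a]
      congr 2
      ext
      simp
    have := h.1 m'
    subst hmx hlx
    omega
  rcases eq_or_ne (a i) 0 with h0 | h0
  swap
  · exact hcore i (by rw [hP]; simp [h0])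
  have hcover : ∀ v < ∑ y, a y, ∃ j : Fin n, prefixSum a j ≤ v ∧ v < prefixSum a j + a j := by
    intro v hv
    have hex : ∃ k, v < prefixSum a k := ⟨n, by rw [prefixSum_top]; exact hv⟩
    have hk : v < prefixSum a (Nat.find hex) := Nat.find_spec hex
    obtain ⟨k, hk'⟩ : ∃ k, Nat.find hex = k + 1 := by
      refine ⟨Nat.find hex - 1, (Nat.succ_pred_eq_of_ne_zero fun h => ?_).symm⟩
      rw [h] at hk
      simp [prefixSum] at hk
    have hkn : k < n := by
      have : Nat.find hex ≤ n := Nat.find_min' hex (by rw [prefixSum_top]; exact hv)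
      omega
    refine ⟨⟨k, hkn⟩, not_lt.1 (Nat.find_min hex (show k < Nat.find hex by omega)), ?_⟩
    rw [← prefixSum_succ]
    rwa [hk'] at hk
  rcases lt_trichotomy (t i) (prefixSum a i) with hlt | heq | hgt
  · obtain ⟨j, hj1, hj2⟩ := hcover (t i) (hlt.trans_le (by
      rw [← prefixSum_top]; exact prefixSum_mono a i.isLt.le))
    have hja : a j ≠ 0 := by omega
    have hji : j < i := by
      by_contra! hij
      have := prefixSum_mono a (show (i : ℕ) ≤ j from hij)
      omega
    refine absurd ?_ (h.2 j i hji.ne (t i - prefixSum a j) (by omega))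
    rw [hcore j (by rw [hP]; simp [hja]), shiftIdx, if_pos hji]
    omega
  · exact heq
  · obtain ⟨j, hj1, hj2⟩ := hcover (t i - 1) (by have := h.1 i; omega)
    have hja : a j ≠ 0 := by omega
    have hij : i < j := by
      by_contra! hji
      rcases hji.eq_or_lt with h' | h'
      · exact hja (h' ▸ h0)
      · have := prefixSum_mono a (show (j : ℕ) + 1 ≤ i from h')
        rw [prefixSum_succ] at this
        omega
    refine absurd ?_ (h.2 j i hij.ne' (t i - 1 - prefixSum a j) (by omega))
    rw [hcore j (by rw [hP]; simp [hja]), shiftIdx, if_neg (not_lt.2 hij.le)]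
    omega

section Field

variable {K : Type*} [Field K] [DecidableEq K]

omit [DecidableEq K] in
theorem prod_qPoch_telescope (q : K) (a : Fin n → ℕ) :
    ∏ i : Fin n, qPoch q (∑ j, a j - prefixSum a i) =
      qPoch q (∑ j, a j) * ∏ i : Fin n, qPoch q (∑ j, a j - prefixSum a (i + 1)) := by
  have h1 := prod_range_succ (fun k => qPoch q (∑ j, a j - prefixSum a k)) n
  have h2 := prod_range_succ' (fun k => qPoch q (∑ j, a j - prefixSum a k)) n
  rw [h1, prefixSum_top, Nat.sub_self] at h2
  simp only [qPoch, range_zero, prod_empty, mul_one, prefixSum, sum_empty, Nat.sub_zero] at h2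
  rw [Fin.prod_univ_eq_prod_range (fun k => qPoch q (∑ j, a j - prefixSum a k)),
    Fin.prod_univ_eq_prod_range (fun k => qPoch q (∑ j, a j - prefixSum a (k + 1)))]
  simp only [qPoch, prefixSum]
  rw [h2, mul_comm]

theorem prod_grid_erase {q : K} (hq : ∀ x y : ℕ, q ^ x = q ^ y → x = y) {S N : ℕ} (h : S ≤ N) :
    ∏ b ∈ ((range (N + 1)).image fun u => q ^ u).erase (q ^ S), (q ^ S - b) =
      (∏ v ∈ range S, (q ^ S - q ^ v)) * ((q ^ S) ^ (N - S) * qPoch q (N - S)) := by
  rw [← image_erase (fun x y h => hq x y h), prod_image fun x _ y _ h => hq x y h,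
    show (range (N + 1)).erase S = range S ∪ Ico (S + 1) (N + 1) by ext; simp; omega,
    prod_union (disjoint_left.2 fun x hx hx' => by simp at hx hx'; omega),
    prod_Ico_eq_prod_range, Nat.add_sub_add_right, qPoch, ← prod_const_one (s := range (N - S))]
  congr 1
  rw [prod_const_one, ← card_range (N - S), ← prod_const, card_range, ← prod_mul_distrib]
  exact prod_congr rfl fun u _ => by ring

theorem eval_mul_qPoch {q : K} (hq : ∀ x y : ℕ, q ^ x = q ^ y → x = y) (a : Fin n → ℕ) :
    eval (fun i : Fin n => q ^ prefixSum a i) (qDysonPoly q a) *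
        ((∏ i, qPoch q (a i)) * ∏ i : Fin n, qPoch q (∑ j, a j - prefixSum a (i + 1))) =
      (∏ i, ∏ b ∈ ((range (dysonExp univ a i + 1)).image fun u => q ^ u).erase
        (q ^ prefixSum a i), (q ^ prefixSum a i - b)) *
        ∏ i : Fin n, qPoch q (∑ j, a j - prefixSum a i) := by
  simp only [qDysonPoly, map_prod, map_sub, map_mul, eval_X, eval_C]
  rw [prod_comm' (t' := univ) (s' := fun i => univ.erase i) (h := fun x y => by simp [eq_comm]),
    ← prod_mul_distrib, ← prod_mul_distrib, ← prod_mul_distrib]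
  refine prod_congr rfl fun i _ => ?_
  obtain ⟨σ, hσ⟩ : ∃ σ, σ = ∑ j, a j := ⟨_, rfl⟩
  obtain ⟨S, hS⟩ : ∃ S, S = prefixSum a i := ⟨_, rfl⟩
  have hle : S + a i ≤ σ := by
    rw [hS, hσ, ← prefixSum_succ, ← prefixSum_top]
    exact prefixSum_mono a i.isLt
  have hd : dysonExp univ a i = σ - a i := by
    rw [dysonExp_apply, if_pos (mem_univ i), hσ, ← add_sum_erase _ _ (mem_univ i),
      Nat.add_sub_cancel_left]
  rw [show (univ : Finset (Fin n)).erase i = Iio i ∪ Ioi i by ext; simp,
    prod_union (disjoint_left.2 fun x hx hx' =>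
      lt_asymm (mem_Iio.1 hx) (mem_Ioi.1 hx')), hd, prod_grid_erase hq (by omega),
    prefixSum_succ, ← hS, ← hσ]
  have hlow : ∏ j ∈ Iio i, ∏ u ∈ range (a j),
      (q ^ S - q ^ (u + shiftIdx j i) * q ^ prefixSum a j) = ∏ v ∈ range S, (q ^ S - q ^ v) := by
    rw [hS, ← prod_blocks_Iio a (fun v => q ^ prefixSum a i - q ^ v) i]
    refine prod_congr rfl fun j hj => prod_congr rfl fun u _ => ?_
    rw [shiftIdx, if_pos (mem_Iio.1 hj)]
    ring
  have hupp : ∏ j ∈ Ioi i, ∏ u ∈ range (a j),
      (q ^ S - q ^ (u + shiftIdx j i) * q ^ prefixSum a j) =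
        (q ^ S) ^ (σ - (S + a i)) * ∏ u ∈ range (σ - (S + a i)), (1 - q ^ (a i + u + 1)) := by
    rw [← card_range (σ - (S + a i)), ← prod_const, card_range, ← prod_mul_distrib]
    calc _ = ∏ v ∈ Ico (S + a i) σ, (q ^ S - q ^ (v + 1)) := by
          rw [hS, hσ, ← prod_blocks_Ioi a (fun v => q ^ prefixSum a i - q ^ (v + 1)) i]
          refine prod_congr rfl fun j hj => prod_congr rfl fun u _ => ?_
          rw [shiftIdx, if_neg (not_lt.2 (mem_Ioi.1 hj).le)]
          ring
      _ = _ := by
          rw [prod_Ico_eq_prod_range]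
          exact prod_congr rfl fun u _ => by ring
  rw [hlow, hupp, show σ - a i - S = σ - (S + a i) by omega,
    show σ - S = a i + (σ - (S + a i)) by omega, qPoch_add]
  ring

theorem qDyson_field {q : K} (hq : ∀ x y : ℕ, q ^ x = q ^ y → x = y) (a : Fin n → ℕ) :
    coeff (dysonExp univ a) (qDysonPoly q a) * ∏ i, qPoch q (a i) = qPoch q (∑ j, a j) := by
  have hne : ∀ m, qPoch q m ≠ 0 := fun m => prod_ne_zero_iff.2 fun u _ h =>
    absurd (hq (u + 1) 0 (by rw [pow_zero]; exact (sub_eq_zero.1 h).symm)) (Nat.succ_ne_zero u)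
  have hd : ∀ i, dysonExp univ a i + a i = ∑ j, a j := fun i => by
    rw [dysonExp_apply, if_pos (mem_univ i), sum_erase_add _ _ (mem_univ i)]
  have hcard : ∀ i, ((range (dysonExp univ a i + 1)).image fun u => q ^ u).card =
      dysonExp univ a i + 1 := fun i => by
    rw [card_image_of_injective _ fun x y h => hq x y h, card_range]
  have hmem : (fun i : Fin n => q ^ prefixSum a i) ∈
      Fintype.piFinset fun i => (range (dysonExp univ a i + 1)).image fun u => q ^ u :=
    Fintype.mem_piFinset.2 fun i => mem_image_of_mem _ (mem_range.2 (by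
      have := hd i
      have := prefixSum_mono a (show (i : ℕ) + 1 ≤ n from i.isLt)
      rw [prefixSum_top, prefixSum_succ] at this
      omega))
  rw [coeff_eq_grid_sum _ _ _ hcard (totalDegree_qDysonPoly_le q a),
    sum_eq_single (fun i : Fin n => q ^ prefixSum a i) ?_ fun h => absurd hmem h]
  swap
  · intro c hc hne'
    rw [Fintype.mem_piFinset] at hc
    choose t ht htc using fun i => mem_image.1 (hc i)
    obtain rfl : c = fun i => q ^ t i := funext fun i => (htc i).symm
    rw [show eval (fun i => q ^ t i) (qDysonPoly q a) = 0 from ?_, zero_div]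
    by_contra h0
    simp only [qDysonPoly, map_prod, map_sub, map_mul, eval_X, eval_C, prod_ne_zero_iff,
      mem_erase, mem_univ, and_true, mem_range, sub_ne_zero] at h0
    have hadm : Admissible a t := ⟨fun i => by
      have := hd i
      have := mem_range.1 (ht i)
      omega, fun i j hij u hu he => h0 i trivial j hij.symm u hu (by rw [he, pow_add, mul_comm])⟩
    exact hne' (funext fun i => by rw [hadm.eq_prefixSum i])
  have hD : ∏ i, ∏ b ∈ ((range (dysonExp univ a i + 1)).image fun u => q ^ u).erase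
      (q ^ prefixSum a i), (q ^ prefixSum a i - b) ≠ 0 :=
    prod_ne_zero_iff.2 fun i _ => prod_ne_zero_iff.2 fun b hb =>
      sub_ne_zero.2 (ne_of_mem_erase hb).symm
  have hT : (∏ i : Fin n, qPoch q (∑ j, a j - prefixSum a (i + 1))) ≠ 0 :=
    prod_ne_zero_iff.2 fun i _ => hne _
  refine mul_right_cancel₀ hT ?_
  rw [div_mul_eq_mul_div, div_mul_eq_mul_div, mul_assoc, eval_mul_qPoch hq, prod_qPoch_telescope,
    mul_div_cancel_left₀ _ hD]

end Field

/-- **The q-Dyson theorem.** -/
theorem qDyson {R : Type*} [CommRing R] (q : R) (a : Fin n → ℕ) :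
    coeff (dysonExp univ a) (qDysonPoly q a) * ∏ i, qPoch q (a i) = qPoch q (∑ j, a j) := by
  have hgen : coeff (dysonExp univ a) (qDysonPoly (Polynomial.X : Polynomial ℤ) a) *
      ∏ i, qPoch (Polynomial.X : Polynomial ℤ) (a i) = qPoch Polynomial.X (∑ j, a j) := by
    classical
    apply IsFractionRing.injective (Polynomial ℤ) (FractionRing (Polynomial ℤ))
    rw [map_mul, map_prod, ← coeff_map, map_qDysonPoly]
    simp only [qPoch, map_prod, map_sub, map_one, map_pow]
    refine qDyson_field (fun x y h => ?_) a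
    rw [← map_pow, ← map_pow] at h
    have := congrArg Polynomial.natDegree
      (IsFractionRing.injective (Polynomial ℤ) (FractionRing (Polynomial ℤ)) h)
    simpa using this
  have h := congrArg (Polynomial.eval₂RingHom (Int.castRingHom R) q) hgen
  rw [map_mul, map_prod, ← coeff_map, map_qDysonPoly] at h
  simpa [qPoch] using h

theorem qDysonPoly_one (a : Fin n → ℕ) : qDysonPoly (1 : ℤ) a = dysonPoly univ a := by
  simp [qDysonPoly, dysonPoly]

end FA.QDyson
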